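import Mathlib
import Fermat.Agent.DivPoly.Pointwise

/-!
# FrobTrace: shared definitions

Goal of the library (`Fermat/Agent/Lib/FrobTrace/Main.lean`): for a Weierstrass curve `W` with
`Δ ≠ 0` over a finite field `F` with `q` elements and an algebraically closed extension `k`,
the `q`-power Frobenius `π` on `W(k)` satisfies `π² - t π + q = 0`, `t = q + 1 - #W(F)`.

Context used everywhere: `F → k → L` a tower of fields, `W` over `F`, `x y : L` the coordinates of
a "generic point".  `L` is abstract; all we need about it is packaged in `Model`.
-/

set_option autoImplicit false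

namespace Fermat.Agent.FrobTrace

open Polynomial WeierstrassCurve WeierstrassCurve.Affine
open scoped Polynomial.Bivariate
open Fermat.Agent.DivPoly (px pz T0 T1 T2)

/-- the degree of a pair of polynomials (= degree of the rational function `A / B` when
`A`, `B` are coprime) -/
def pdeg {k : Type*} [Semiring k] (A B : k[X]) : ℕ := max A.natDegree B.natDegree

/-- the degree of a triple of polynomials -/
def tdeg {k : Type*} [Semiring k] (A B C : k[X]) : ℕ := max (max A.natDegree B.natDegree) C.natDegree

/-- `V ^ d * A (U / V)`: the homogenisation of `A` in degree `d`, evaluated at `(U, V)`. -/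
noncomputable def homEval {k R : Type*} [CommSemiring k] [CommSemiring R] [Algebra k R]
    (A : k[X]) (d : ℕ) (U V : R) : R :=
  ∑ i ∈ Finset.range (d + 1), algebraMap k R (A.coeff i) * U ^ i * V ^ (d - i)

/-- the three polynomials have no common root -/
def NoRoot3 {k : Type*} [Semiring k] (u0 u1 u2 : k[X]) : Prop :=
  ∀ r : k, ¬ (u0.eval r = 0 ∧ u1.eval r = 0 ∧ u2.eval r = 0)

section Rat

variable (k : Type*) {L : Type*} [Field k] [Field L] [Algebra k L]

variable {k} in
/-- `A(x) / B(x)` (in lowest terms) is the x-coordinate of the point `Φ`
(`B = 0`, `A` a unit, if `Φ = 0`). -/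
def IsRat (x : L) {V : Affine L} (Φ : V.Point) (A B : k[X]) : Prop :=
  IsCoprime A B ∧ aeval x A * pz Φ = aeval x B * px Φ

open Classical in
/-- the degree of the x-coordinate of `Φ` as a rational function of `x` (junk value `0` if it is
not a rational function of `x`). -/
noncomputable def hdeg (x : L) {V : Affine L} (Φ : V.Point) : ℕ :=
  if h : ∃ A B : k[X], IsRat x Φ A B then pdeg h.choose h.choose_spec.choose else 0

end Rat

section Tower

variable {F : Type*} [Field F] (W : WeierstrassCurve F)

/-- functoriality of points, for `F`-algebra homomorphisms of fields -/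
noncomputable abbrev pm {K K' : Type*} [Field K] [Field K'] [Algebra F K] [Algebra F K']
    [DecidableEq K] [DecidableEq K'] (f : K →ₐ[F] K') :
    (W.baseChange K).toAffine.Point →+ (W.baseChange K').toAffine.Point :=
  Point.map (W' := W.toAffine) f

/-- the `q`-power Frobenius on `W(K)` -/
noncomputable abbrev frob [Fintype F] (K : Type*) [Field K] [Algebra F K] [DecidableEq K] :
    (W.baseChange K).toAffine.Point →+ (W.baseChange K).toAffine.Point :=
  pm W (FiniteField.frobeniusAlgHom F K)

/-- `π² - t π + q` on `W(K)` -/
noncomputable def charEnd [Fintype F] (t : ℤ) (K : Type*) [Field K] [Algebra F K] [DecidableEq K] :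
    (W.baseChange K).toAffine.Point →+ (W.baseChange K).toAffine.Point :=
  (frob W K).comp (frob W K) - t • frob W K + (Fintype.card F : ℤ) • AddMonoidHom.id _

theorem Δ_baseChange_ne_zero (hΔ : W.Δ ≠ 0) (K : Type*) [Field K] [Algebra F K] :
    (W.baseChange K).toAffine.Δ ≠ 0 := by
  rw [WeierstrassCurve.baseChange, WeierstrassCurve.map_Δ]
  exact (map_ne_zero_iff _ (algebraMap F K).injective).mpr hΔ

/-- the point with coordinates `(u, v)` -/
def mkPt (hΔ : W.Δ ≠ 0) {K : Type*} [Field K] [Algebra F K] (u v : K)
    (h : (W.baseChange K).toAffine.Equation u v) : (W.baseChange K).toAffine.Point :=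
  Point.some u v (((W.baseChange K).toAffine.equation_iff_nonsingular_of_Δ_ne_zero
    (Δ_baseChange_ne_zero W hΔ K)).mp h)

/-- constant points: the map `W(k) → W(L)` -/
noncomputable abbrev cst (k L : Type*) [Field k] [Field L] [Algebra F k] [Algebra F L] [Algebra k L]
    [IsScalarTower F k L] [DecidableEq k] [DecidableEq L] :
    (W.baseChange k).toAffine.Point →+ (W.baseChange L).toAffine.Point :=
  pm W (IsScalarTower.toAlgHom F k L)

/-- the subgroup of points `Φ` of `W(L)` with `ι Φ = - Φ` -/
noncomputable def antiInv {k L : Type*} [Field k] [Field L] [Algebra F k] [Algebra F L]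
    [Algebra k L] [IsScalarTower F k L] [DecidableEq L] (ι : L →ₐ[k] L) :
    AddSubgroup (W.baseChange L).toAffine.Point :=
  (pm W (ι.restrictScalars F) + AddMonoidHom.id _).ker

/-- **The interface to the function field.**  `L` is a field containing `k`, and `(x, y)` is a
generic point of `W` over `k`. -/
structure Model (k L : Type*) [Field k] [Field L] [Algebra F k] [Algebra F L] [Algebra k L]
    [IsScalarTower F k L] (x y : L) : Prop where
  /-- `(x, y)` is on the curve -/
  eqn : (W.baseChange L).toAffine.Equation x y
  /-- `x` is transcendental -/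
  transc : Transcendental k x
  /-- the hyperelliptic involution; its fixed field is `k(x)` -/
  invol : ∃ ι : L →ₐ[k] L, ι x = x ∧ ι y = (W.baseChange L).toAffine.negY x y ∧
    ∀ f : L, ι f = f → ∃ A B : k[X], B ≠ 0 ∧ f * aeval x B = aeval x A
  /-- every non-constant point of `W(L)` is the image of the generic point under a `k`-embedding -/
  pull : ∀ u v : L, (W.baseChange L).toAffine.Equation u v → Transcendental k u →
    ∃ σ : L →ₐ[k] L, σ x = u ∧ σ y = v
  /-- every polynomial relation between `x` and `y` holds at all points of `W(k)` -/
  spec : ∀ G : k[X][Y], aevalAeval x y G = 0 →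
    ∀ c d : k, (W.baseChange k).toAffine.Equation c d → G.evalEval c d = 0

/-- the function field of `W` over `k` -/
abbrev FFk (k : Type*) [Field k] [Algebra F k] : Type _ := (W.baseChange k).toAffine.FunctionField

/-- the coordinate function `x` -/
noncomputable def xg (k : Type*) [Field k] [Algebra F k] : FFk W k :=
  algebraMap (W.baseChange k).toAffine.CoordinateRing (FFk W k)
    (CoordinateRing.mk (W.baseChange k).toAffine (C X))

/-- the coordinate function `y` -/
noncomputable def yg (k : Type*) [Field k] [Algebra F k] : FFk W k :=
  algebraMap (W.baseChange k).toAffine.CoordinateRing (FFk W k)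
    (CoordinateRing.mk (W.baseChange k).toAffine Y)

end Tower

end Fermat.Agent.FrobTrace
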